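/-
Programme MAZ (S15), brick 738 T1B-U3' (TORS) (helper12), file 1: commutative algebra.

* `killer t B` : an element of `R` (a polynomial in `t`) killing every `R`-module with at most `B`
  elements (`killer_smul_eq_zero`), nonzero when `t` is neither zero nor a root of unity;
* `finite_setOf_mem_ideal` : finitely many ideals contain `f` when `R ⧸ (f)` is finite;
* `eval_injective`, `mem_range_eval` : evaluation of linear forms of an invertible module at a
  nonzero element `σ` is injective, and its range contains every `f` with `f • N ≤ R σ`;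
* `not_isUnit_of_free`, `pow_ne_one_of_free` : the coordinate of a nonzero finite free
  `K[t]`-algebra is not a unit, not a root of unity.
-/
import Mathlib
import Fermat.Agent.Jac.DegAdd79Alg
import Fermat.Agent.Jac.CurveHyp80.Algebra

set_option autoImplicit false

open Polynomial TensorProduct

namespace Fermat.Agent.MAZ.PicFin12

/-! ### The universal killer -/

section Kill

variable {R : Type*} [CommRing R]

/-- An element killing every `R`-module with at most `B` elements. -/
def killer (t : R) (B : ℕ) : R := t ^ B * ∏ m ∈ Finset.Icc 1 B, (t ^ m - 1)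

theorem killer_smul_eq_zero {Q : Type*} [AddCommGroup Q] [Module R Q] [Finite Q] (t : R) (B : ℕ)
    (hB : Nat.card Q ≤ B) (q : Q) : killer t B • q = 0 := by
  have hninj : ¬ Function.Injective (fun i : Fin (B + 1) => t ^ (i : ℕ) • q) := by
    intro hinj
    have := Nat.card_le_card_of_injective _ hinj
    rw [Nat.card_eq_fintype_card, Fintype.card_fin] at this
    omega
  obtain ⟨i, j, hij, hjB, he⟩ : ∃ i j : ℕ, i < j ∧ j ≤ B ∧ t ^ i • q = t ^ j • q := by
    rw [Function.Injective] at hninj
    push Not at hninj
    obtain ⟨a, b, hab, hne⟩ := hninj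
    have hne' : (a : ℕ) ≠ (b : ℕ) := fun h => hne (Fin.ext h)
    rcases lt_or_gt_of_ne hne' with h | h
    · exact ⟨a, b, h, Nat.lt_succ_iff.1 b.2, hab⟩
    · exact ⟨b, a, h, Nat.lt_succ_iff.1 a.2, hab.symm⟩
  have hm : j - i ∈ Finset.Icc 1 B := Finset.mem_Icc.2 ⟨by omega, by omega⟩
  have hkey : (t ^ i * (t ^ (j - i) - 1)) • q = 0 := by
    rw [mul_sub, mul_one, ← pow_add, Nat.add_sub_cancel' hij.le, sub_smul, he, sub_self]
  have hfac : killer t B = (t ^ (B - i) * ∏ m ∈ (Finset.Icc 1 B).erase (j - i), (t ^ m - 1)) *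
      (t ^ i * (t ^ (j - i) - 1)) := by
    unfold killer
    rw [← Finset.mul_prod_erase _ _ hm]
    have : t ^ B = t ^ (B - i) * t ^ i := by
      rw [← pow_add, Nat.sub_add_cancel (by omega)]
    rw [this]
    ring
  rw [hfac, mul_smul, hkey, smul_zero]

theorem killer_ne_zero [IsDomain R] (t : R) (ht0 : t ≠ 0) (ht : ∀ m : ℕ, 1 ≤ m → t ^ m ≠ 1)
    (B : ℕ) : killer t B ≠ 0 := by
  unfold killer
  refine mul_ne_zero (pow_ne_zero _ ht0) (Finset.prod_ne_zero_iff.2 fun m hm => ?_)
  exact sub_ne_zero.2 (ht m (Finset.mem_Icc.1 hm).1)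

end Kill

/-! ### Finitely many ideals above a principal ideal of finite index -/

section Ideals

variable {R : Type*} [CommRing R]

theorem finite_setOf_mem_ideal (f : R) [Finite (R ⧸ Ideal.span {f})] :
    {I : Ideal R | f ∈ I}.Finite := by
  refine Set.Finite.of_injOn (f := fun I : Ideal R => I.map (Ideal.Quotient.mk (Ideal.span {f})))
    (t := Set.univ) (fun _ _ => Set.mem_univ _) ?_ Set.finite_univ
  intro I hI J hJ hIJ
  have hsurj : Function.Surjective (Ideal.Quotient.mk (Ideal.span {f})) :=
    Ideal.Quotient.mk_surjective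
  have hker : Ideal.comap (Ideal.Quotient.mk (Ideal.span {f})) ⊥ = Ideal.span {f} := by
    rw [← RingHom.ker_eq_comap_bot, Ideal.mk_ker]
  have h1 := Ideal.comap_map_of_surjective _ hsurj I
  have h2 := Ideal.comap_map_of_surjective _ hsurj J
  have hI' : Ideal.span {f} ≤ I := (Ideal.span_singleton_le_iff_mem I).2 hI
  have hJ' : Ideal.span {f} ≤ J := (Ideal.span_singleton_le_iff_mem J).2 hJ
  rw [hker, sup_eq_left.2 hI'] at h1
  rw [hker, sup_eq_left.2 hJ'] at h2
  have hIJ' : Ideal.map (Ideal.Quotient.mk (Ideal.span {f})) I =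
      Ideal.map (Ideal.Quotient.mk (Ideal.span {f})) J := hIJ
  rw [← h1, ← h2, hIJ']

end Ideals

/-! ### Evaluation of linear forms of an invertible module -/

section Eval

variable {R N : Type*} [CommRing R] [AddCommGroup N] [Module R N] [Module.Invertible R N]

/-- Evaluation at a nonzero element of an invertible module over a domain is injective on linear
forms. -/
theorem eval_injective [IsDomain R] (σ : N) (hσ : σ ≠ 0) :
    Function.Injective (Module.Dual.eval R N σ) := by
  rw [injective_iff_map_eq_zero]
  intro φ hφ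
  have hφ' : φ σ = 0 := hφ
  ext y
  have h := Fermat.Agent.Jac.DegAdd79Alg.dual_smul_comm φ σ y
  rw [hφ', zero_smul] at h
  have := Fermat.Agent.Jac.DegAdd79Alg.toSpanSingleton_injective (R := R) σ hσ
    (a₁ := φ y) (a₂ := 0) (by
      rw [LinearMap.toSpanSingleton_apply, LinearMap.toSpanSingleton_apply, zero_smul, ← h])
  simpa using this

/-- If `f • N ≤ R σ` then `f` is the value at `σ` of a linear form. -/
theorem mem_range_eval (σ : N) (f : R) (hf : ∀ n : N, ∃ b : R, f • n = b • σ) :
    f ∈ LinearMap.range (Module.Dual.eval R N σ) := by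
  have key : ∀ z : Module.Dual R N ⊗[R] N,
      f * contractLeft R N z ∈ LinearMap.range (Module.Dual.eval R N σ) := by
    intro z
    induction z using TensorProduct.induction_on with
    | zero => simp
    | tmul φ n =>
      obtain ⟨b, hb⟩ := hf n
      refine ⟨b • φ, ?_⟩
      rw [contractLeft_apply, Module.Dual.eval_apply, LinearMap.smul_apply, smul_eq_mul,
        ← smul_eq_mul (a := b), ← map_smul, ← hb, map_smul, smul_eq_mul]
    | add x y hx hy =>
      rw [map_add, mul_add]
      exact Submodule.add_mem _ hx hy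
  obtain ⟨z, hz⟩ := (Module.Invertible.linearEquiv R N).surjective 1
  have hz' : contractLeft R N z = 1 := hz
  have := key z
  rwa [hz', mul_one] at this

end Eval

/-! ### The coordinate of a finite free `K[t]`-algebra -/

section Coord

variable {K : Type*} [Field K] {R : Type*} [CommRing R] [Algebra K R] (t : R)

/-- The coordinate `t` of a nonzero `K`-algebra which is finite free over `K[t]` is not a unit. -/
theorem not_isUnit_of_free [Nontrivial R] [Module.Free K[X] (Module.AEval K R t)]
    [Module.Finite K[X] (Module.AEval K R t)] : ¬ IsUnit t := by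
  intro hunit
  obtain ⟨u, hu⟩ := hunit.exists_right_inv
  have htop : (⊤ : Submodule K[X] (Module.AEval K R t)) ≤
      (Ideal.span {(X : K[X])}) • (⊤ : Submodule K[X] (Module.AEval K R t)) := by
    intro m _
    have hm : m = (X : K[X]) • (Module.AEval.of K R t) (u * (Module.AEval.of K R t).symm m) := by
      rw [Module.AEval.X_smul_of, smul_eq_mul, ← mul_assoc, hu, one_mul,
        LinearEquiv.apply_symm_apply]
    rw [hm]
    exact Submodule.smul_mem_smul (Ideal.subset_span rfl) Submodule.mem_top
  obtain ⟨r, hr, hr0⟩ := Submodule.exists_sub_one_mem_and_smul_eq_zero_of_fg_of_le_smul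
    (Ideal.span {(X : K[X])}) (⊤ : Submodule K[X] (Module.AEval K R t))
    (Module.Finite.fg_top) htop
  have hr' : r = 0 :=
    Fermat.Agent.Jac.CurveHyp80.eq_zero_of_smul_eq_zero t
      (Fermat.Agent.Jac.CurveHyp80.of_one_ne_zero (k := K) t) (hr0 _ Submodule.mem_top)
  rw [hr', zero_sub, Ideal.neg_mem_iff, Ideal.mem_span_singleton] at hr
  have h1 := Polynomial.X_dvd_iff.1 hr
  rw [Polynomial.coeff_one_zero] at h1
  exact one_ne_zero h1

/-- The coordinate is not a root of unity. -/
theorem pow_ne_one_of_free [Nontrivial R] [Module.Free K[X] (Module.AEval K R t)]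
    (m : ℕ) (hm : 1 ≤ m) : t ^ m ≠ 1 := by
  intro h
  have h1 : Polynomial.aeval (R := K) t (X ^ m) = Polynomial.aeval (R := K) t 1 := by
    rw [map_pow, aeval_X, map_one, h]
  have h2 := Fermat.Agent.Jac.CurveHyp80.aeval_injective (k := K) t h1
  have h3 := congrArg Polynomial.natDegree h2
  rw [natDegree_X_pow, natDegree_one] at h3
  omega

end Coord

end Fermat.Agent.MAZ.PicFin12
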