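/-
Programme MAZ (S15), brick 738 T1B-U3' (TORS) (helper12), file 2: two-chart modules.

* `nonempty_iso_of_range_eq` : two injective morphisms `L → M`, `L' → M` with the same images on
  both charts have isomorphic sources;
* `evalAt c G hG σ : Hom (G^∨) O` : evaluation of linear forms at a global section `σ` of `G`
  (its image is the ideal sheaf of the zeros of `σ`).
-/
import Mathlib
import Fermat.Agent.Jac.LineOps39.Section
import Fermat.Agent.Jac.LineOps39.Dual

set_option autoImplicit false
set_option linter.unusedSectionVars false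

universe u

open TensorProduct

namespace Fermat.Agent.MAZ.PicFin12

open Fermat.Agent.Jac Fermat.Agent.Jac.LineOps39

variable {A R0 R1 R01 : Type u} [CommRing A] [CommRing R0] [CommRing R1] [CommRing R01]
  [Algebra A R0] [Algebra A R1] [Algebra A R01] [Algebra R0 R01] [Algebra R1 R01]
  [IsScalarTower A R0 R01] [IsScalarTower A R1 R01]

section Range

variable {R N N' P : Type*} [CommRing R] [AddCommGroup N] [AddCommGroup N'] [AddCommGroup P]
  [Module R N] [Module R N'] [Module R P]

/-- The identification of the sources of two injective linear maps with the same range. -/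
noncomputable def equivOfRangeEq (f : N →ₗ[R] P) (g : N' →ₗ[R] P) (hf : Function.Injective f)
    (hg : Function.Injective g) (h : LinearMap.range f = LinearMap.range g) : N ≃ₗ[R] N' :=
  (LinearEquiv.ofInjective f hf).trans
    ((LinearEquiv.ofEq _ _ h).trans (LinearEquiv.ofInjective g hg).symm)

theorem equivOfRangeEq_spec (f : N →ₗ[R] P) (g : N' →ₗ[R] P) (hf : Function.Injective f)
    (hg : Function.Injective g) (h : LinearMap.range f = LinearMap.range g) (x : N) :
    g (equivOfRangeEq f g hf hg h x) = f x := by
  unfold equivOfRangeEq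
  have h1 : ∀ y : LinearMap.range g, g ((LinearEquiv.ofInjective g hg).symm y) = y := by
    intro y
    have := (LinearEquiv.ofInjective g hg).apply_symm_apply y
    exact congrArg Subtype.val this
  rw [LinearEquiv.trans_apply, LinearEquiv.trans_apply, h1]
  rfl

end Range

/-- Two injective morphisms into the same two-chart module with the same images on the two charts
have isomorphic sources. -/
theorem nonempty_iso_of_range_eq (c : TwoChart A R0 R1 R01) {L L' M : QC2 A R0 R1 R01}
    (f : QC2.Hom L M) (g : QC2.Hom L' M)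
    (hf0 : Function.Injective f.f0) (hf1 : Function.Injective f.f1)
    (hg0 : Function.Injective g.f0) (hg1 : Function.Injective g.f1)
    (h0 : LinearMap.range f.f0 = LinearMap.range g.f0)
    (h1 : LinearMap.range f.f1 = LinearMap.range g.f1) : Nonempty (QC2.Iso L L') := by
  have hf01 : Function.Injective f.f01 := f01_injective_of c f hf0
  have hg01 : Function.Injective g.f01 := f01_injective_of c g hg0
  have h01 : LinearMap.range f.f01 = LinearMap.range g.f01 := by
    rw [← span_r0_range_f0 f, ← span_r0_range_f0 g, h0]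
  refine ⟨{
    e0 := equivOfRangeEq f.f0 g.f0 hf0 hg0 h0
    e1 := equivOfRangeEq f.f1 g.f1 hf1 hg1 h1
    e01 := equivOfRangeEq f.f01 g.f01 hf01 hg01 h01
    comm0 := fun x => ?_
    comm1 := fun x => ?_ }⟩
  · apply hg01
    rw [equivOfRangeEq_spec, g.comm0, equivOfRangeEq_spec, f.comm0]
  · apply hg01
    rw [equivOfRangeEq_spec, g.comm1, equivOfRangeEq_spec, f.comm1]

/-- Evaluation of linear forms at a global section: a morphism `G^∨ → O`. -/
noncomputable def evalAt (c : TwoChart A R0 R1 R01) (G : QC2 A R0 R1 R01) (hG : G.IsVB)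
    (σ : G.H0) : QC2.Hom (dual c G hG) QC2.unit where
  f0 := Module.Dual.eval R0 G.N0 σ.1.1
  f1 := Module.Dual.eval R1 G.N1 σ.1.2
  f01 := Module.Dual.eval R01 G.N01 (G.r0 σ.1.1)
  comm0 := fun φ => dual_r0_apply c G hG φ σ.1.1
  comm1 := fun ψ => by
    have h := dual_r1_apply c G hG ψ σ.1.2
    rw [← H0_compat G σ] at h
    exact h

@[simp] theorem evalAt_f0 (c : TwoChart A R0 R1 R01) (G : QC2 A R0 R1 R01) (hG : G.IsVB)
    (σ : G.H0) : (evalAt c G hG σ).f0 = Module.Dual.eval R0 G.N0 σ.1.1 := rfl

@[simp] theorem evalAt_f1 (c : TwoChart A R0 R1 R01) (G : QC2 A R0 R1 R01) (hG : G.IsVB)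
    (σ : G.H0) : (evalAt c G hG σ).f1 = Module.Dual.eval R1 G.N1 σ.1.2 := rfl

end Fermat.Agent.MAZ.PicFin12
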