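/-
Programme MAZ (S15), brick 738 T1B-U3' (TORS) (helper12), file 3:
**the degree-zero Picard group of an integral two-chart curve over a FINITE field is a torsion
group.**

`c : TwoChart K C0 C1 C01`, `K` a finite field, charts domains, finite projective over the line.
`deg0_torsion : ∀ x ∈ Bal60.deg0 c hc, ∃ h, 0 < h ∧ x ^ h = 1`.

Proof.  Fix a line `F = O(n)` with `χ(F) ≥ 1`.  For every `k` the class `x^k [F]` is represented by
a line `G_k` with `χ(G_k) = χ(F) ≥ 1`, which therefore has a nonzero global section `σ_k`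
(Riemann's inequality `h⁰ ≥ χ`).  The zero scheme of `σ_k` has degree `d = χ(F) - χ(O)` on each
chart, so the modules `N0/σ_k`, `N1/σ_k` have at most `B = |K|^d` elements and are killed by the
universal elements `killer t B`, `killer s B`.  Hence the images `I_k`, `J_k` of the evaluation
`G_k^∨ → O` at `σ_k` (the ideal sheaf of the zeros of `σ_k`) contain these two nonzero elements;
there are only finitely many such ideals (`C0/(f)` is finite).  By the pigeonhole principle
`(I_j, J_j) = (I_k, J_k)` for some `j < k`, so `G_j^∨ ≅ G_k^∨`, i.e. `x^j [F] = x^k [F]`.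
-/
import Mathlib
import Fermat.Agent.MAZ.PicFin12.Alg
import Fermat.Agent.MAZ.PicFin12.EvalHom
import Fermat.Agent.T1B.Bal60.Degree
import Fermat.Agent.T1B.Bal60.Mdeg
import Fermat.Agent.Jac.P1CohChi.LineRank

set_option autoImplicit false
set_option linter.style.haveILetI false
set_option linter.unusedSectionVars false

universe u

open TensorProduct Polynomial

namespace Fermat.Agent.MAZ.PicFin12

open Fermat.Agent.Jac Fermat.Agent.Jac.LineOps39 Fermat.Agent.Jac.JGroup85Pic
  Fermat.Agent.Jac.DegAdd79 Fermat.Agent.Jac.DegAdd79Section Fermat.Agent.Jac.DegAdd79Alg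
  Fermat.Agent.Jac.JGroup85Euler Fermat.Agent.T1B.Bal60

variable {K C0 C1 C01 : Type u} [Field K] [CommRing C0] [CommRing C1] [CommRing C01]
  [Algebra K C0] [Algebra K C1] [Algebra K C01] [Algebra C0 C01] [Algebra C1 C01]
  [IsScalarTower K C0 C01] [IsScalarTower K C1 C01]
  [IsDomain C0] [IsDomain C1] [Nontrivial C01]
  (c : TwoChart K C0 C1 C01) (hc : c.FiniteProjOverLine)

/-! ### A line of positive Euler characteristic -/

include hc in
/-- The divisor at infinity has positive degree. -/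
theorem finrank_UInf_pos : 0 < Module.finrank K (P1CohChi.LineRank.UInf c) := by
  haveI := P1CohChi.LineRank.finite_UInf c hc
  haveI := hc.fin1
  haveI := hc.proj1
  haveI : Module.Free K[X] (Module.AEval K C1 c.s) := inferInstance
  haveI : Nontrivial (P1CohChi.LineRank.UInf c) := by
    by_contra hnt
    rw [not_nontrivial_iff_subsingleton] at hnt
    have htop : P1CohChi.Fibre.sSub K (c.s ^ 1) C1 = ⊤ :=
      Submodule.Quotient.subsingleton_iff.1 hnt
    have h1 : (1 : C1) ∈ P1CohChi.Fibre.sSub K (c.s ^ 1) C1 := by rw [htop]; trivial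
    obtain ⟨y, hy⟩ := h1
    have hy' : c.s * y = 1 := by simpa using hy
    exact not_isUnit_of_free (K := K) c.s (IsUnit.of_mul_eq_one y hy')
  exact Module.finrank_pos

include hc in
/-- There is a line with positive Euler characteristic. -/
theorem exists_isLine_one_le_chi :
    ∃ F : QC2 K C0 C1 C01, F.IsLine ∧ 1 ≤ F.chiField K := by
  have hU : (QC2.unit : QC2 K C0 C1 C01).IsLine := isLine_unit
  set n : ℕ := (1 - (QC2.unit : QC2 K C0 C1 C01).chiField K).toNat with hn
  refine ⟨(QC2.unit : QC2 K C0 C1 C01).twist c (n : ℤ), ⟨hU.inv0, hU.inv1⟩, ?_⟩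
  obtain ⟨-, -, e⟩ := P1CohChi.euler_twist_of_field (QC2.unit : QC2 K C0 C1 C01) c
    (finiteOverLine_of_isLine c hc hU) (projOverLine_of_isLine c hc hU) (n : ℤ)
  rw [P1CohChi.chiField_self, e, ← P1CohChi.chiField_self]
  have hpos : (1 : ℤ) ≤ (Module.finrank K (P1CohChi.LineRank.UInf c) : ℤ) := by
    exact_mod_cast finrank_UInf_pos c hc
  have h1 : (1 : ℤ) - (QC2.unit : QC2 K C0 C1 C01).chiField K ≤ (n : ℤ) := by
    rw [hn]; exact Int.self_le_toNat _
  have h2 : (n : ℤ) ≤ (n : ℤ) * (Module.finrank K (P1CohChi.LineRank.UInf c) : ℤ) :=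
    le_mul_of_one_le_right (Int.natCast_nonneg n) hpos
  have h3 : (Module.finrank K (P1CohChi.QInf c (QC2.unit : QC2 K C0 C1 C01) 1) : ℤ) =
      (Module.finrank K (P1CohChi.LineRank.UInf c) : ℤ) := rfl
  rw [h3]
  linarith

/-! ### Sections -/

/-- Riemann's inequality: a line with positive Euler characteristic has a nonzero section. -/
theorem exists_section_ne_zero {G : QC2 K C0 C1 C01} (hχ : 1 ≤ G.chiField K) :
    ∃ σ : G.H0, σ ≠ 0 := by
  rw [P1CohChi.chiField_self] at hχ
  have hpos : 0 < Module.finrank K G.H0 := by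
    have : (0 : ℤ) ≤ (Module.finrank K G.H1 : ℤ) := Int.natCast_nonneg _
    have h : (1 : ℤ) ≤ (Module.finrank K G.H0 : ℤ) := by linarith
    exact_mod_cast h
  haveI : Nontrivial G.H0 := Module.nontrivial_of_finrank_pos (R := K) hpos
  exact exists_ne 0

include c in
/-- The first component of a nonzero section of a line is nonzero. -/
theorem section_fst_ne_zero {G : QC2 K C0 C1 C01} (hG : G.IsLine) (σ : G.H0) (hσ : σ ≠ 0) :
    σ.1.1 ≠ 0 := by
  intro h0
  apply hσ
  have h1 : σ.1.2 = 0 := by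
    by_contra h1
    apply r1_ne_zero c hG σ.1.2 h1
    rw [← H0_compat G σ, h0, map_zero]
  exact Subtype.ext (Prod.ext h0 h1)

include c in
/-- The second component of a nonzero section of a line is nonzero. -/
theorem section_snd_ne_zero {G : QC2 K C0 C1 C01} (hG : G.IsLine) (σ : G.H0) (hσ : σ ≠ 0) :
    σ.1.2 ≠ 0 := by
  intro h1
  apply r0_ne_zero c hG σ.1.1 (section_fst_ne_zero c hG σ hσ)
  rw [H0_compat G σ, h1, map_zero]

include hc in
/-- The zero scheme of a nonzero section of `G` has degree at most `χ(G) - χ(O)` on each chart. -/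
theorem finrank_quotient_le {G : QC2 K C0 C1 C01} (hG : G.IsLine) (σ : G.H0) (hσ : σ ≠ 0) :
    Module.Finite K (G.N0 ⧸ Submodule.span C0 {σ.1.1}) ∧
    Module.Finite K (G.N1 ⧸ Submodule.span C1 {σ.1.2}) ∧
    (Module.finrank K (G.N0 ⧸ Submodule.span C0 {σ.1.1}) : ℤ) ≤
      G.chiField K - (QC2.unit : QC2 K C0 C1 C01).chiField K ∧
    (Module.finrank K (G.N1 ⧸ Submodule.span C1 {σ.1.2}) : ℤ) ≤
      G.chiField K - (QC2.unit : QC2 K C0 C1 C01).chiField K := by
  obtain ⟨τ, hτ0, hτ1⟩ := nonempty_goodSection c hc hG σ.1.1 σ.1.2 (H0_compat G σ)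
    (section_fst_ne_zero c hG σ hσ)
  haveI := τ.fin0
  haveI := τ.fin1
  haveI := τ.fin01
  obtain ⟨a0, a1⟩ := finiteDimensional_of_isLine c hc (isLine_unit (A := K) (R0 := C0)
    (R1 := C1) (R01 := C01))
  obtain ⟨-, -, e⟩ := eulerChar_tensor_of_goodSection (QC2.unit : QC2 K C0 C1 C01) G
    isLine_unit τ
  have e2 : eulerChar (tensor (QC2.unit : QC2 K C0 C1 C01) G).d = eulerChar G.d :=
    eulerChar_congr (tensorUnitLeft G)
  have hdeg : τ.deg = G.chiField K - (QC2.unit : QC2 K C0 C1 C01).chiField K := by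
    rw [chiField_eq_eulerChar, chiField_eq_eulerChar]
    linarith
  have := c.away0
  have := c.away1
  have h01le0 : Module.finrank K (G.N01 ⧸ Submodule.span C01 {G.r0 τ.s0}) ≤
      Module.finrank K (G.N0 ⧸ Submodule.span C0 {τ.s0}) :=
    finrank_quotient_le_of_isBaseChange (K := K) c.t G.r0 G.bc0 τ.s0
  have h01le1 : Module.finrank K (G.N01 ⧸ Submodule.span C01 {G.r0 τ.s0}) ≤
      Module.finrank K (G.N1 ⧸ Submodule.span C1 {τ.s1}) := by
    rw [τ.compat]
    exact finrank_quotient_le_of_isBaseChange (K := K) c.s G.r1 G.bc1 τ.s1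
  unfold GoodSection.deg at hdeg
  rw [← hτ0, ← hτ1]
  refine ⟨τ.fin0, τ.fin1, ?_, ?_⟩
  · rw [← hdeg]
    have : (Module.finrank K (G.N01 ⧸ Submodule.span C01 {G.r0 τ.s0}) : ℤ) ≤
        (Module.finrank K (G.N1 ⧸ Submodule.span C1 {τ.s1}) : ℤ) := by exact_mod_cast h01le1
    linarith
  · rw [← hdeg]
    have : (Module.finrank K (G.N01 ⧸ Submodule.span C01 {G.r0 τ.s0}) : ℤ) ≤
        (Module.finrank K (G.N0 ⧸ Submodule.span C0 {τ.s0}) : ℤ) := by exact_mod_cast h01le0
    linarith

end Fermat.Agent.MAZ.PicFin12
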