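/-
Programme MAZ (S15), brick 738 T1B-U3' (TORS) (helper12), file 4:
**`deg0_torsion`: the degree-zero Picard group of an integral two-chart curve over a finite field
is a torsion group** (see the header of `Integral.lean` for the proof).
-/
import Mathlib
import Fermat.Agent.MAZ.PicFin12.Integral

set_option autoImplicit false
set_option linter.style.haveILetI false
set_option linter.unusedSectionVars false

universe u

open TensorProduct Polynomial

namespace Fermat.Agent.MAZ.PicFin12

open Fermat.Agent.Jac Fermat.Agent.Jac.LineOps39 Fermat.Agent.Jac.JGroup85Pic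
  Fermat.Agent.Jac.DegAdd79 Fermat.Agent.Jac.DegAdd79Section Fermat.Agent.Jac.DegAdd79Alg
  Fermat.Agent.Jac.JGroup85Euler Fermat.Agent.T1B.Bal60

variable {K C0 C1 C01 : Type u} [Field K] [Finite K] [CommRing C0] [CommRing C1] [CommRing C01]
  [Algebra K C0] [Algebra K C1] [Algebra K C01] [Algebra C0 C01] [Algebra C1 C01]
  [IsScalarTower K C0 C01] [IsScalarTower K C1 C01]
  [IsDomain C0] [IsDomain C1] [Nontrivial C01]
  (c : TwoChart K C0 C1 C01) (hc : c.FiniteProjOverLine)

include hc in
/-- The universal killers lie in the images of the evaluation at a nonzero section. -/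
theorem killer_mem_range {G : QC2 K C0 C1 C01} (hG : G.IsLine) (σ : G.H0) (hσ : σ ≠ 0) (d : ℕ)
    (hd : G.chiField K - (QC2.unit : QC2 K C0 C1 C01).chiField K ≤ d) :
    killer c.t (Nat.card K ^ d) ∈ LinearMap.range (Module.Dual.eval C0 G.N0 σ.1.1) ∧
    killer c.s (Nat.card K ^ d) ∈ LinearMap.range (Module.Dual.eval C1 G.N1 σ.1.2) := by
  obtain ⟨f0, f1, h0, h1⟩ := finrank_quotient_le c hc hG σ hσ
  haveI := hG.inv0
  haveI := hG.inv1
  have hK : 0 < Nat.card K := Nat.card_pos
  constructor
  · haveI : Finite (G.N0 ⧸ Submodule.span C0 {σ.1.1}) := Module.finite_of_finite K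
    have hcard : Nat.card (G.N0 ⧸ Submodule.span C0 {σ.1.1}) ≤ Nat.card K ^ d := by
      rw [Module.natCard_eq_pow_finrank (K := K)]
      apply Nat.pow_le_pow_right hK
      have : (Module.finrank K (G.N0 ⧸ Submodule.span C0 {σ.1.1}) : ℤ) ≤ d := h0.trans hd
      exact_mod_cast this
    apply mem_range_eval
    intro n
    have := killer_smul_eq_zero c.t _ hcard (Submodule.Quotient.mk n)
    rw [← Submodule.Quotient.mk_smul, Submodule.Quotient.mk_eq_zero,
      Submodule.mem_span_singleton] at this
    obtain ⟨b, hb⟩ := this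
    exact ⟨b, hb.symm⟩
  · haveI : Finite (G.N1 ⧸ Submodule.span C1 {σ.1.2}) := Module.finite_of_finite K
    have hcard : Nat.card (G.N1 ⧸ Submodule.span C1 {σ.1.2}) ≤ Nat.card K ^ d := by
      rw [Module.natCard_eq_pow_finrank (K := K)]
      apply Nat.pow_le_pow_right hK
      have : (Module.finrank K (G.N1 ⧸ Submodule.span C1 {σ.1.2}) : ℤ) ≤ d := h1.trans hd
      exact_mod_cast this
    apply mem_range_eval
    intro n
    have := killer_smul_eq_zero c.s _ hcard (Submodule.Quotient.mk n)
    rw [← Submodule.Quotient.mk_smul, Submodule.Quotient.mk_eq_zero,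
      Submodule.mem_span_singleton] at this
    obtain ⟨b, hb⟩ := this
    exact ⟨b, hb.symm⟩

include hc in
/-- The quotient of the first chart by a nonzero element is finite. -/
theorem finite_quot_span0 (f : C0) (hf : f ≠ 0) : Finite (C0 ⧸ Ideal.span {f}) := by
  haveI : Module.Finite K (C0 ⧸ Submodule.span C0 {f}) :=
    finite_quotient_span_singleton (K := K) (R := C0) (N := C0) c.t hc.fin0 f hf
  exact Module.finite_of_finite K (M := C0 ⧸ Submodule.span C0 {f})

include hc in
/-- The quotient of the second chart by a nonzero element is finite. -/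
theorem finite_quot_span1 (f : C1) (hf : f ≠ 0) : Finite (C1 ⧸ Ideal.span {f}) := by
  haveI : Module.Finite K (C1 ⧸ Submodule.span C1 {f}) :=
    finite_quotient_span_singleton (K := K) (R := C1) (N := C1) c.s hc.fin1 f hf
  exact Module.finite_of_finite K (M := C1 ⧸ Submodule.span C1 {f})

include hc in
/-- **The degree-zero Picard group of an integral two-chart curve over a finite field is a
torsion group.** -/
theorem deg0_torsion (x : LinePic c) (hx : x ∈ deg0 c hc) : ∃ h : ℕ, 0 < h ∧ x ^ h = 1 := by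
  obtain ⟨F, hF, hFχ⟩ := exists_isLine_one_le_chi c hc
  set y : LinePic c := LinePic.mk c F hF with hy
  have hrep : ∀ k : ℕ, ∃ (G : QC2 K C0 C1 C01) (hG : G.IsLine),
      x ^ k * y = LinePic.mk c G hG := fun k => LinePic.exists_rep _
  choose G hG hGk using hrep
  have hχ : ∀ k, (G k).chiField K = F.chiField K := by
    intro k
    have h1 : degHom c hc (x ^ k * y) = degHom c hc y := by
      rw [map_mul, map_pow]
      have : degHom c hc x = 1 := by
        rw [deg0_eq_ker] at hx
        exact hx
      rw [this, one_pow, one_mul]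
    rw [hGk k, hy, degHom_mk, degHom_mk] at h1
    have h2 : lineDeg (G k) = lineDeg F := Multiplicative.ofAdd.injective h1
    unfold lineDeg at h2
    linarith
  have hsec : ∀ k, ∃ σ : (G k).H0, σ ≠ 0 := fun k =>
    exists_section_ne_zero (by rw [hχ k]; exact hFχ)
  choose σ hσ using hsec
  set d : ℕ := (F.chiField K - (QC2.unit : QC2 K C0 C1 C01).chiField K).toNat with hd
  have hdk : ∀ k, (G k).chiField K - (QC2.unit : QC2 K C0 C1 C01).chiField K ≤ d := by
    intro k
    rw [hχ k, hd]
    exact Int.self_le_toNat _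
  -- the two killers are nonzero
  haveI := hc.fin0
  haveI := hc.proj0
  haveI := hc.fin1
  haveI := hc.proj1
  haveI : Module.Free K[X] (Module.AEval K C0 c.t) := inferInstance
  haveI : Module.Free K[X] (Module.AEval K C1 c.s) := inferInstance
  have hk0 : killer c.t (Nat.card K ^ d) ≠ 0 :=
    killer_ne_zero c.t (t_ne_zero c) (pow_ne_one_of_free (K := K) c.t) _
  have hk1 : killer c.s (Nat.card K ^ d) ≠ 0 :=
    killer_ne_zero c.s (s_ne_zero c) (pow_ne_one_of_free (K := K) c.s) _
  haveI := finite_quot_span0 c hc _ hk0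
  haveI := finite_quot_span1 c hc _ hk1
  -- the ideals of zeros
  let Φ : ℕ → Ideal C0 × Ideal C1 := fun k =>
    (LinearMap.range (Module.Dual.eval C0 (G k).N0 (σ k).1.1),
      LinearMap.range (Module.Dual.eval C1 (G k).N1 (σ k).1.2))
  have hΦ : ∀ k, Φ k ∈ ({I : Ideal C0 | killer c.t (Nat.card K ^ d) ∈ I} ×ˢ
      {J : Ideal C1 | killer c.s (Nat.card K ^ d) ∈ J}) := by
    intro k
    obtain ⟨h0, h1⟩ := killer_mem_range c hc (hG k) (σ k) (hσ k) d (hdk k)
    exact ⟨h0, h1⟩
  obtain ⟨j, k, hjk, hΦjk⟩ := Set.Finite.exists_lt_map_eq_of_forall_mem hΦ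
    ((finite_setOf_mem_ideal _).prod (finite_setOf_mem_ideal _))
  -- the duals are isomorphic
  have hj0 := (hG j).inv0
  have hj1 := (hG j).inv1
  have hk0' := (hG k).inv0
  have hk1' := (hG k).inv1
  obtain ⟨e⟩ := nonempty_iso_of_range_eq c
    (evalAt c (G j) (isVB_of_isLine (hG j)) (σ j)) (evalAt c (G k) (isVB_of_isLine (hG k)) (σ k))
    (eval_injective (R := C0) (N := (G j).N0) _ (section_fst_ne_zero c (hG j) (σ j) (hσ j)))
    (eval_injective (R := C1) (N := (G j).N1) _ (section_snd_ne_zero c (hG j) (σ j) (hσ j)))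
    (eval_injective (R := C0) (N := (G k).N0) _ (section_fst_ne_zero c (hG k) (σ k) (hσ k)))
    (eval_injective (R := C1) (N := (G k).N1) _ (section_snd_ne_zero c (hG k) (σ k) (hσ k)))
    (congrArg Prod.fst hΦjk) (congrArg Prod.snd hΦjk)
  have h1 : (LinePic.mk c (G j) (hG j))⁻¹ = (LinePic.mk c (G k) (hG k))⁻¹ := by
    rw [LinePic.inv_mk, LinePic.inv_mk]
    exact LinePic.mk_eq_mk _ _ e
  rw [inv_inj, ← hGk j, ← hGk k] at h1
  have h2 : x ^ j = x ^ k := mul_right_cancel h1
  refine ⟨k - j, Nat.sub_pos_of_lt hjk, ?_⟩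
  have h3 : x ^ k = x ^ j * x ^ (k - j) := by
    rw [← pow_add, Nat.add_sub_cancel' hjk.le]
  rw [h3] at h2
  exact mul_eq_left.1 h2.symm

end Fermat.Agent.MAZ.PicFin12
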